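import Mathlib
import Fermat.Agent.LT.T6.H830.HCSpec

/-!
# Row LT, tower T6, leaf T6.29.R5 `EisIwRC` (helper309)

OFF-MAIN.  `eisIwRC309 : Fermat.Agent.LT.T6.H830.EisIwRC`, VERBATIM the Prop of
`T6/H830/HCSpec.lean` (helper830@99e12b740, sha256 `c3e7d846…`), unconditional.

`F = f · eisR n s` is continuous (`det > 0` is clopen in `GL₂(ℝ)`, `f` vanishes on `det < 0`, the
base of the complex power is a positive real on `det > 0`), compactly supported, supported in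
`det > 0`, right `SO(2)`-invariant (`k = [[p, -q], [q, p]]`, `holPart k = p + i q`,
`d' + i c' = (d + i c)(p + i q)`), and `eisR n s (bR ζ r x) = exp (r (s + 1/2))`.
-/

set_option autoImplicit false
set_option linter.unusedSimpArgs false

open scoped Matrix
open MeasureTheory

noncomputable section

namespace Fermat.Agent.LT.T6.H309

open Fermat.Agent.LT.T6 Fermat.Agent.LT.T6.H830

/-- The entries are continuous on `GL₂(ℝ)`. -/
theorem continuous_entry309 (i j : Fin 2) :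
    Continuous (fun g : GL (Fin 2) ℝ => (g : Matrix (Fin 2) (Fin 2) ℝ) i j) :=
  (Units.continuous_val (M := Matrix (Fin 2) (Fin 2) ℝ)).matrix_elem i j

/-- The determinant is continuous on `GL₂(ℝ)`. -/
theorem continuous_det309 :
    Continuous (fun g : GL (Fin 2) ℝ => (g : Matrix (Fin 2) (Fin 2) ℝ).det) :=
  (Units.continuous_val (M := Matrix (Fin 2) (Fin 2) ℝ)).matrix_det

theorem det_ne_zero309 (g : GL (Fin 2) ℝ) : (g : Matrix (Fin 2) (Fin 2) ℝ).det ≠ 0 := by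
  have h : IsUnit (g : Matrix (Fin 2) (Fin 2) ℝ) := g.isUnit
  exact ((Matrix.isUnit_iff_isUnit_det _).mp h).ne_zero

/-- The second row of an invertible matrix does not vanish. -/
theorem row_pos309 (g : GL (Fin 2) ℝ) :
    0 < (g : Matrix (Fin 2) (Fin 2) ℝ) 1 0 ^ 2 + (g : Matrix (Fin 2) (Fin 2) ℝ) 1 1 ^ 2 := by
  have hdet := det_ne_zero309 g
  rw [Matrix.det_fin_two] at hdet
  by_contra h
  have h0 : (g : Matrix (Fin 2) (Fin 2) ℝ) 1 0 ^ 2 + (g : Matrix (Fin 2) (Fin 2) ℝ) 1 1 ^ 2 = 0 :=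
    le_antisymm (not_lt.mp h) (by positivity)
  have h1 : (g : Matrix (Fin 2) (Fin 2) ℝ) 1 0 = 0 := by
    have := sq_nonneg ((g : Matrix (Fin 2) (Fin 2) ℝ) 1 1)
    have h2 : (g : Matrix (Fin 2) (Fin 2) ℝ) 1 0 ^ 2 = 0 :=
      le_antisymm (by linarith) (sq_nonneg _)
    exact pow_eq_zero_iff (two_ne_zero) |>.mp h2
  have h2 : (g : Matrix (Fin 2) (Fin 2) ℝ) 1 1 = 0 := by
    have := sq_nonneg ((g : Matrix (Fin 2) (Fin 2) ℝ) 1 0)
    have h2 : (g : Matrix (Fin 2) (Fin 2) ℝ) 1 1 ^ 2 = 0 :=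
      le_antisymm (by linarith) (sq_nonneg _)
    exact pow_eq_zero_iff (two_ne_zero) |>.mp h2
  apply hdet
  rw [h1, h2]; ring

/-- `eisR n s` is continuous at the points of positive determinant. -/
theorem continuousAt_eisR309 (n : ℤ) (s : ℂ) (g : GL (Fin 2) ℝ)
    (hg : 0 < (g : Matrix (Fin 2) (Fin 2) ℝ).det) : ContinuousAt (eisR n s) g := by
  have hc := (continuous_entry309 1 0).continuousAt (x := g)
  have hd := (continuous_entry309 1 1).continuousAt (x := g)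
  have hdet := continuous_det309.continuousAt (x := g)
  have hrow := row_pos309 g
  have hsum : ContinuousAt (fun g : GL (Fin 2) ℝ =>
      (g : Matrix (Fin 2) (Fin 2) ℝ) 1 0 ^ 2 + (g : Matrix (Fin 2) (Fin 2) ℝ) 1 1 ^ 2) g :=
    (hc.pow 2).add (hd.pow 2)
  unfold eisR
  apply ContinuousAt.mul
  · apply ContinuousAt.cpow _ continuousAt_const
    · rw [Complex.mem_slitPlane_iff]
      left
      rw [Complex.ofReal_re]
      exact div_pos hg hrow
    · exact Complex.continuous_ofReal.continuousAt.comp (hdet.div hsum hrow.ne')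
  · apply ContinuousAt.zpow₀
    · apply ContinuousAt.div
      · exact (Complex.continuous_ofReal.continuousAt.comp hd).add
          ((Complex.continuous_ofReal.continuousAt.comp hc).mul continuousAt_const)
      · exact Complex.continuous_ofReal.continuousAt.comp (Real.continuous_sqrt.continuousAt.comp hsum)
      · exact Complex.ofReal_ne_zero.mpr (Real.sqrt_pos.mpr hrow).ne'
    · left
      apply div_ne_zero
      · intro h
        have hre := congrArg Complex.re h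
        have him := congrArg Complex.im h
        simp at hre him
        rw [hre, him] at hrow
        simp at hrow
      · exact Complex.ofReal_ne_zero.mpr (Real.sqrt_pos.mpr hrow).ne'

/-- `f · eisR n s` is continuous. -/
theorem continuous_mul_eisR309 (n : ℤ) (s : ℂ) (f : GL (Fin 2) ℝ → ℂ) (hf : Continuous f)
    (hpos : ∀ g : GL (Fin 2) ℝ, f g ≠ 0 → 0 < (g : Matrix (Fin 2) (Fin 2) ℝ).det) :
    Continuous (fun y : GL (Fin 2) ℝ => f y * eisR n s y) := by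
  rw [continuous_iff_continuousAt]
  intro g
  rcases lt_or_gt_of_ne (det_ne_zero309 g) with h | h
  · have hopen : IsOpen {y : GL (Fin 2) ℝ | (y : Matrix (Fin 2) (Fin 2) ℝ).det < 0} :=
      isOpen_lt continuous_det309 continuous_const
    have hev : (fun y : GL (Fin 2) ℝ => f y * eisR n s y) =ᶠ[nhds g] fun _ => 0 := by
      filter_upwards [hopen.mem_nhds h] with y hy
      have h0 : f y = 0 := by
        by_contra h0
        exact absurd (hpos y h0) (not_lt.mpr (le_of_lt hy))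
      simp [h0]
    exact continuousAt_const.congr hev.symm
  · exact hf.continuousAt.mul (continuousAt_eisR309 n s g h)

/-- The shape of the elements of `SO(2)`. -/
theorem so2_form309 (k : GL (Fin 2) ℝ) (hk : InSO2 k) :
    (k : Matrix (Fin 2) (Fin 2) ℝ) 1 1 = (k : Matrix (Fin 2) (Fin 2) ℝ) 0 0 ∧
      (k : Matrix (Fin 2) (Fin 2) ℝ) 0 1 = -(k : Matrix (Fin 2) (Fin 2) ℝ) 1 0 ∧
      (k : Matrix (Fin 2) (Fin 2) ℝ) 0 0 ^ 2 + (k : Matrix (Fin 2) (Fin 2) ℝ) 1 0 ^ 2 = 1 := by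
  obtain ⟨h1, h2⟩ := hk
  rw [Matrix.det_fin_two] at h2
  have e00 := congrFun (congrFun h1 0) 0
  have e11 := congrFun (congrFun h1 1) 1
  simp only [Matrix.mul_apply, Fin.sum_univ_two, Matrix.transpose_apply, Matrix.one_apply_eq]
    at e00 e11
  have hsq : ((k : Matrix (Fin 2) (Fin 2) ℝ) 0 0 - (k : Matrix (Fin 2) (Fin 2) ℝ) 1 1) ^ 2
      + ((k : Matrix (Fin 2) (Fin 2) ℝ) 0 1 + (k : Matrix (Fin 2) (Fin 2) ℝ) 1 0) ^ 2 = 0 := by
    linear_combination e00 + e11 - 2 * h2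
  have ha : ((k : Matrix (Fin 2) (Fin 2) ℝ) 0 0 - (k : Matrix (Fin 2) (Fin 2) ℝ) 1 1) ^ 2 = 0 :=
    le_antisymm (by nlinarith [sq_nonneg ((k : Matrix (Fin 2) (Fin 2) ℝ) 0 1
      + (k : Matrix (Fin 2) (Fin 2) ℝ) 1 0)]) (sq_nonneg _)
  have hb : ((k : Matrix (Fin 2) (Fin 2) ℝ) 0 1 + (k : Matrix (Fin 2) (Fin 2) ℝ) 1 0) ^ 2 = 0 :=
    le_antisymm (by nlinarith [sq_nonneg ((k : Matrix (Fin 2) (Fin 2) ℝ) 0 0
      - (k : Matrix (Fin 2) (Fin 2) ℝ) 1 1)]) (sq_nonneg _)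
  have ha' := pow_eq_zero_iff (two_ne_zero) |>.mp ha
  have hb' := pow_eq_zero_iff (two_ne_zero) |>.mp hb
  have h11 : (k : Matrix (Fin 2) (Fin 2) ℝ) 1 1 = (k : Matrix (Fin 2) (Fin 2) ℝ) 0 0 := by
    linarith
  have h01 : (k : Matrix (Fin 2) (Fin 2) ℝ) 0 1 = -(k : Matrix (Fin 2) (Fin 2) ℝ) 1 0 := by
    linarith
  refine ⟨h11, h01, ?_⟩
  rw [h01] at e00
  linear_combination e00

/-- `holPart k = p + i q` for `k = [[p, -q], [q, p]]`. -/
theorem holPart_so2_309 (k : GL (Fin 2) ℝ) (hk : InSO2 k) :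
    holPart k = (((k : Matrix (Fin 2) (Fin 2) ℝ) 0 0 : ℝ) : ℂ)
      + (((k : Matrix (Fin 2) (Fin 2) ℝ) 1 0 : ℝ) : ℂ) * Complex.I := by
  obtain ⟨h11, h01, -⟩ := so2_form309 k hk
  unfold holPart
  rw [h11, h01]
  push_cast
  ring

theorem holPart_so2_ne_zero309 (k : GL (Fin 2) ℝ) (hk : InSO2 k) : holPart k ≠ 0 := by
  obtain ⟨-, -, h⟩ := so2_form309 k hk
  rw [holPart_so2_309 k hk]
  intro h0
  have hre := congrArg Complex.re h0
  have him := congrArg Complex.im h0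
  simp at hre him
  rw [hre, him] at h
  simp at h

/-- `E(g k) = E(g) χ_n(k)` for `k ∈ SO(2)`. -/
theorem eisR_mul_so2_309 (n : ℤ) (s : ℂ) (g k : GL (Fin 2) ℝ) (hk : InSO2 k) :
    eisR n s (g * k) = eisR n s g * wtChar n k := by
  obtain ⟨h11, h01, hpq⟩ := so2_form309 k hk
  have hdetk : (k : Matrix (Fin 2) (Fin 2) ℝ).det = 1 := hk.2
  have hc : ((g * k : GL (Fin 2) ℝ) : Matrix (Fin 2) (Fin 2) ℝ) 1 0
      = (g : Matrix (Fin 2) (Fin 2) ℝ) 1 0 * (k : Matrix (Fin 2) (Fin 2) ℝ) 0 0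
        + (g : Matrix (Fin 2) (Fin 2) ℝ) 1 1 * (k : Matrix (Fin 2) (Fin 2) ℝ) 1 0 := by
    rw [Units.val_mul, Matrix.mul_apply, Fin.sum_univ_two]
  have hd : ((g * k : GL (Fin 2) ℝ) : Matrix (Fin 2) (Fin 2) ℝ) 1 1
      = (g : Matrix (Fin 2) (Fin 2) ℝ) 1 1 * (k : Matrix (Fin 2) (Fin 2) ℝ) 0 0
        - (g : Matrix (Fin 2) (Fin 2) ℝ) 1 0 * (k : Matrix (Fin 2) (Fin 2) ℝ) 1 0 := by
    rw [Units.val_mul, Matrix.mul_apply, Fin.sum_univ_two, h11, h01]
    ring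
  have hdet : ((g * k : GL (Fin 2) ℝ) : Matrix (Fin 2) (Fin 2) ℝ).det
      = (g : Matrix (Fin 2) (Fin 2) ℝ).det := by
    rw [Units.val_mul, Matrix.det_mul, hdetk, mul_one]
  have hsum : ((g * k : GL (Fin 2) ℝ) : Matrix (Fin 2) (Fin 2) ℝ) 1 0 ^ 2
      + ((g * k : GL (Fin 2) ℝ) : Matrix (Fin 2) (Fin 2) ℝ) 1 1 ^ 2
      = (g : Matrix (Fin 2) (Fin 2) ℝ) 1 0 ^ 2 + (g : Matrix (Fin 2) (Fin 2) ℝ) 1 1 ^ 2 := by
    rw [hc, hd]
    linear_combination ((g : Matrix (Fin 2) (Fin 2) ℝ) 1 0 ^ 2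
      + (g : Matrix (Fin 2) (Fin 2) ℝ) 1 1 ^ 2) * hpq
  unfold eisR wtChar
  rw [hdet, hsum, holPart_so2_309 k hk, mul_assoc, ← mul_zpow]
  congr 2
  rw [hc, hd]
  push_cast
  linear_combination (-((((g : Matrix (Fin 2) (Fin 2) ℝ) 1 0 : ℝ) : ℂ)
    * (((k : Matrix (Fin 2) (Fin 2) ℝ) 1 0 : ℝ) : ℂ)
    * (((Real.sqrt ((g : Matrix (Fin 2) (Fin 2) ℝ) 1 0 ^ 2
      + (g : Matrix (Fin 2) (Fin 2) ℝ) 1 1 ^ 2) : ℝ) : ℂ))⁻¹)) * Complex.I_sq

/-- `E(bR ζ r x) = e^{r (s + 1/2)}`. -/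
theorem eisR_bR309 (n : ℤ) (s : ℂ) (ζ r x : ℝ) :
    eisR n s (bR ζ r x) = Complex.exp ((r : ℂ) * (s + 1 / 2)) := by
  have h10 : ((bR ζ r x : GL (Fin 2) ℝ) : Matrix (Fin 2) (Fin 2) ℝ) 1 0 = 0 := by
    rw [coe_bR830]; rfl
  have h11 : ((bR ζ r x : GL (Fin 2) ℝ) : Matrix (Fin 2) (Fin 2) ℝ) 1 1
      = Real.exp ((ζ - r) / 2) := by
    rw [coe_bR830]; rfl
  have hdet : ((bR ζ r x : GL (Fin 2) ℝ) : Matrix (Fin 2) (Fin 2) ℝ).det
      = Real.exp ((ζ + r) / 2) * Real.exp ((ζ - r) / 2) := by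
    rw [coe_bR830, Matrix.det_fin_two_of, mul_zero, sub_zero]
  have hquot : Real.exp ((ζ + r) / 2) * Real.exp ((ζ - r) / 2)
      / ((0 : ℝ) ^ 2 + Real.exp ((ζ - r) / 2) ^ 2) = Real.exp r := by
    have h1 : Real.exp ((ζ + r) / 2) = Real.exp r * Real.exp ((ζ - r) / 2) := by
      rw [← Real.exp_add]; congr 1; ring
    have h2 : Real.exp ((ζ - r) / 2) ≠ 0 := Real.exp_ne_zero _
    rw [h1]
    field_simp
    ring
  have hsqrt : Real.sqrt ((0 : ℝ) ^ 2 + Real.exp ((ζ - r) / 2) ^ 2) = Real.exp ((ζ - r) / 2) := by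
    rw [zero_pow two_ne_zero, zero_add, Real.sqrt_sq (Real.exp_pos _).le]
  unfold eisR
  rw [hdet, h10, h11, hquot, hsqrt]
  have hne : ((Real.exp ((ζ - r) / 2) : ℝ) : ℂ) ≠ 0 :=
    Complex.ofReal_ne_zero.mpr (Real.exp_ne_zero _)
  have hone : ((((Real.exp ((ζ - r) / 2) : ℝ) : ℂ) + ((0 : ℝ) : ℂ) * Complex.I)
      / ((Real.exp ((ζ - r) / 2) : ℝ) : ℂ)) = 1 := by
    rw [Complex.ofReal_zero, zero_mul, add_zero, div_self hne]
  rw [hone, one_zpow, mul_one]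
  have hne' : ((Real.exp r : ℝ) : ℂ) ≠ 0 := Complex.ofReal_ne_zero.mpr (Real.exp_ne_zero _)
  rw [Complex.cpow_def_of_ne_zero hne', ← Complex.ofReal_log (Real.exp_pos r).le, Real.log_exp]

/-- **T6.29.R5 `EisIwRC`**, verbatim. -/
theorem eisIwRC309 : EisIwRC := by
  intro hIw μ hμ
  obtain ⟨c, hc, hF⟩ := hIw μ hμ
  refine ⟨(c : ℂ), Complex.ofReal_ne_zero.mpr hc.ne', ?_⟩
  intro n _ f hf s
  have hinv : ∀ k g : GL (Fin 2) ℝ, InSO2 k →
      (fun y : GL (Fin 2) ℝ => f y * eisR n s y) (g * k)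
        = (fun y : GL (Fin 2) ℝ => f y * eisR n s y) g := by
    intro k g hk
    have hw : wtChar n k ≠ 0 := zpow_ne_zero n (holPart_so2_ne_zero309 k hk)
    show f (g * k) * eisR n s (g * k) = f g * eisR n s g
    rw [hf.right k g hk, eisR_mul_so2_309 n s g k hk]
    field_simp
  have hposF : ∀ g : GL (Fin 2) ℝ, (fun y : GL (Fin 2) ℝ => f y * eisR n s y) g ≠ 0 →
      0 < (g : Matrix (Fin 2) (Fin 2) ℝ).det := by
    intro g hg
    exact hf.pos g (left_ne_zero_of_mul hg)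
  rw [hF (fun y : GL (Fin 2) ℝ => f y * eisR n s y)
    (continuous_mul_eisR309 n s f hf.cont hf.pos) hf.supp.mul_right hposF hinv]
  congr 1
  unfold melR hcR
  refine integral_congr_ae (Filter.Eventually.of_forall fun ζ => ?_)
  refine integral_congr_ae (Filter.Eventually.of_forall fun r => ?_)
  show (∫ x : ℝ, f (bR ζ r x) * eisR n s (bR ζ r x))
    = Complex.exp ((r : ℂ) * (s + 1 / 2)) * ∫ x : ℝ, f (bR ζ r x)
  rw [← integral_const_mul]
  refine integral_congr_ae (Filter.Eventually.of_forall fun x => ?_)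
  show f (bR ζ r x) * eisR n s (bR ζ r x) = Complex.exp ((r : ℂ) * (s + 1 / 2)) * f (bR ζ r x)
  rw [eisR_bR309, mul_comm]

end Fermat.Agent.LT.T6.H309

end
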